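import Mathlib
import Fermat.Agent.Switch.Family
import Fermat.Agent.Arith.RootsOfUnity

/-!
# Every member of the family is a semistable model
-/

set_option autoImplicit false

namespace Fermat.Agent.Switch

open WeierstrassCurve IsLocalRing

local notation "Qb" => AlgebraicClosure ℚ

variable {W : WeierstrassCurve ℤ} (F : FamilyData W)

theorem intCast_residue_eq_zero_iff {p : ℕ} {A : ValuationSubring Qb} (hA : A.LiesOverPrime p)
    (hp : p.Prime) (m : ℤ) : (m : ResidueField A) = 0 ↔ (p : ℤ) ∣ m := by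
  have := Arith.residueField_charP hA hp
  exact CharP.intCast_eq_zero_iff _ p m

theorem FamilyData.base_mem {p : ℕ} (hp : p.Prime) (h30 : ¬ (p : ℤ) ∣ 30 * W.Δ)
    {A : ValuationSubring Qb} (hA : A.LiesOverPrime p) : F.r₀ ∈ A ∧ F.s₀ ∈ A := by
  have hr : F.r₀ ≠ 0 := fun h => F.fD_base (by simp [fD, h])
  have hs : F.s₀ ≠ 0 := fun h => F.fD_base (by simp [fD, h])
  have h5 : (3125 : ResidueField A) ≠ 0 := by
    intro h
    have h' : ((3125 : ℤ) : ResidueField A) = 0 := by exact_mod_cast h
    rw [intCast_residue_eq_zero_iff hA hp, show (3125 : ℤ) = 5 ^ 5 by norm_num] at h'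
    exact h30 (((Nat.prime_iff_prime_int.mp hp).dvd_of_dvd_pow h').trans
      (dvd_mul_of_dvd_left (by norm_num) _))
  have hD5 : fD F.r₀ F.s₀ ^ 5 = (W.Δ : Qb) := by
    apply mul_left_cancel₀ (show (1728 : Qb) ≠ 0 by norm_num)
    rw [← fC4_cube_sub_fC6_sq, F.c4_base, F.c6_base]
    exact_mod_cast W.c_relation.symm
  -- the larger of the two coordinates is a unit multiple of an integral element
  have key : ∀ a b : Qb, a ≠ 0 → b / a ∈ A → fC4 a b = (W.c₄ : Qb) →
      fD a b ^ 5 = (W.Δ : Qb) → a ∈ A := by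
    intro a b ha hx h4 hD
    by_contra hnot
    have hinv : a⁻¹ ∈ A := (A.mem_or_inv_mem a).resolve_left hnot
    set i : A := ⟨a⁻¹, hinv⟩ with hi
    set x : A := ⟨b / a, hx⟩ with hxdef
    have hi0 : residue A i = 0 := by
      by_contra hne
      have hu : IsUnit i := (residue_ne_zero_iff_isUnit i).mp hne
      obtain ⟨j, hj⟩ := isUnit_iff_exists_inv.mp hu
      have : a⁻¹ * (j : Qb) = 1 := congrArg Subtype.val hj
      exact hnot (by
        have hja : (j : Qb) = a := by field_simp at this; linear_combination this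
        exact hja ▸ j.2)
    have e4 : fC4 1 x = (W.c₄ : A) * i ^ 20 := by
      apply Subtype.ext
      show A.subtype (fC4 1 x) = A.subtype ((W.c₄ : A) * i ^ 20)
      rw [map_fC4, map_mul, map_intCast, map_pow, map_one]
      show fC4 1 (b / a) = (W.c₄ : Qb) * a⁻¹ ^ 20
      rw [← h4, mul_comm (fC4 a b), ← fC4_smul]
      field_simp
    have eD : fD 1 x ^ 5 = (W.Δ : A) * i ^ 60 := by
      apply Subtype.ext
      show A.subtype (fD 1 x ^ 5) = A.subtype ((W.Δ : A) * i ^ 60)
      rw [map_pow, map_fD, map_mul, map_intCast, map_pow, map_one]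
      show fD 1 (b / a) ^ 5 = (W.Δ : Qb) * a⁻¹ ^ 60
      rw [← hD, show a⁻¹ ^ 60 = (a⁻¹ ^ 12) ^ 5 by ring, ← mul_pow, mul_comm (fD a b), ← fD_smul]
      field_simp
    have z4 : fC4 1 (residue A x) = 0 := by
      rw [← map_one (residue A), ← map_fC4, e4]; simp [hi0]
    have zD : fD 1 (residue A x) = 0 := by
      have : fD 1 (residue A x) ^ 5 = 0 := by
        rw [← map_one (residue A), ← map_fD, ← map_pow, eD]; simp [hi0]
      simpa using this
    have hb := bezout_fst (1 : ResidueField A) (residue A x)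
    rw [z4, zD] at hb
    simp [h5] at hb
  rcases A.mem_or_inv_mem (F.s₀ / F.r₀) with h | h
  · have hrA := key _ _ hr h F.c4_base hD5
    refine ⟨hrA, ?_⟩
    have := mul_mem hrA h
    rwa [mul_div_cancel₀ _ hr] at this
  · rw [inv_div] at h
    have h' : -F.r₀ / F.s₀ ∈ A := by rw [neg_div]; exact neg_mem h
    have hsA := key F.s₀ (-F.r₀) hs h' (by rw [fC4_swap]; exact F.c4_base)
      (by rw [fD_swap]; exact hD5)
    refine ⟨?_, hsA⟩
    have := mul_mem hsA h
    rwa [mul_div_cancel₀ _ hs] at this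

theorem FamilyData.isSemistableModel (hW : W.IsSemistableModel) (n : ℤ) :
    (F.curve n).IsSemistableModel := by
  intro p hp hpΔ hpc
  by_cases h30 : (p : ℤ) ∣ 30 * W.Δ
  · have e4 : ((F.d4 n : ℤ) : ZMod p) = 0 :=
      (ZMod.intCast_zmod_eq_zero_iff_dvd _ _).mpr (h30.trans (F.d4_dvd n))
    have e6 : ((F.d6 n : ℤ) : ZMod p) = 0 :=
      (ZMod.intCast_zmod_eq_zero_iff_dvd _ _).mpr (h30.trans (F.d6_dvd n))
    have hmap : (F.curve n).map (Int.castRingHom (ZMod p)) = W.map (Int.castRingHom (ZMod p)) := by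
      ext <;> simp [FamilyData.curve, e4, e6]
    have hd := congrArg WeierstrassCurve.Δ hmap
    have hc := congrArg WeierstrassCurve.c₄ hmap
    simp only [map_Δ, map_c₄, Int.coe_castRingHom] at hd hc
    rw [← ZMod.intCast_zmod_eq_zero_iff_dvd] at hpΔ hpc
    rw [hpΔ] at hd
    rw [hpc] at hc
    exact hW p hp ((ZMod.intCast_zmod_eq_zero_iff_dvd _ _).mp hd.symm)
      ((ZMod.intCast_zmod_eq_zero_iff_dvd _ _).mp hc.symm)
  · obtain ⟨A, hA⟩ := Arith.exists_liesOverPrime hp
    obtain ⟨hrA, hsA⟩ := F.base_mem hp h30 hA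
    set r : A := ⟨F.r₀, hrA⟩ with hr
    set s : A := ⟨F.s₀, hsA⟩ with hs
    set u : A := (F.α : A) * r - fDs r s with hu
    set v : A := (F.α : A) * s + fDr r s with hv
    have hu' : A.subtype u = F.u := by
      rw [hu, map_sub, map_mul, map_intCast, map_fDs, F.hu]; rfl
    have hv' : A.subtype v = F.v := by
      rw [hv, map_add, map_mul, map_intCast, map_fDr, F.hv]; rfl
    set t : A := ((F.M * n : ℤ) : A) with ht
    have hinj : Function.Injective A.subtype := fun x y h => Subtype.ext h
    have hlift1 : A.subtype (r + t * u) = F.r₀ + F.par n * F.u := by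
      rw [map_add, map_mul, hu', ht, map_intCast]; rfl
    have hlift2 : A.subtype (s + t * v) = F.s₀ + F.par n * F.v := by
      rw [map_add, map_mul, hv', ht, map_intCast]; rfl
    have e4 : fC4 (r + t * u) (s + t * v) = ((F.curve n).c₄ : A) := by
      apply hinj
      rw [map_fC4, hlift1, hlift2, map_intCast]
      exact (F.c4_fib n).symm
    have eD : fD (r + t * u) (s + t * v) ^ 5 = ((F.curve n).Δ : A) := by
      apply hinj
      rw [map_pow, map_fD, hlift1, hlift2, map_intCast]
      exact (F.Δ_curve n).symm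
    have e0 : fD r s ^ 5 = ((W.Δ : ℤ) : A) := by
      apply hinj
      rw [map_pow, map_fD, map_intCast]
      apply mul_left_cancel₀ (show (1728 : Qb) ≠ 0 by norm_num)
      show (1728 : Qb) * fD F.r₀ F.s₀ ^ 5 = _
      rw [← fC4_cube_sub_fC6_sq, F.c4_base, F.c6_base]
      exact_mod_cast W.c_relation.symm
    set φ := residue A with hφ
    have z4 : fC4 (φ (r + t * u)) (φ (s + t * v)) = 0 := by
      rw [← map_fC4, e4, map_intCast]
      exact (intCast_residue_eq_zero_iff hA hp _).mpr hpc
    have zD : fD (φ (r + t * u)) (φ (s + t * v)) = 0 := by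
      have : fD (φ (r + t * u)) (φ (s + t * v)) ^ 5 = 0 := by
        rw [← map_fD, ← map_pow, eD, map_intCast]
        exact (intCast_residue_eq_zero_iff hA hp _).mpr hpΔ
      simpa using this
    have hne : ∀ m : ℤ, ¬ (p : ℤ) ∣ m → (m : ResidueField A) ≠ 0 := fun m hm h =>
      hm ((intCast_residue_eq_zero_iff hA hp m).mp h)
    have hp5 : (3125 : ResidueField A) ≠ 0 := by
      have := hne (5 ^ 5) fun h => h30 <| ((Nat.prime_iff_prime_int.mp hp).dvd_of_dvd_pow h).trans
        (dvd_mul_of_dvd_left (by norm_num) _)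
      norm_num at this
      exact this
    have hp12 : (12 : ResidueField A) ≠ 0 := by
      have := hne 12 fun h => h30 <| by
        rcases (Nat.prime_iff_prime_int.mp hp).dvd_or_dvd
          (show (p : ℤ) ∣ 4 * 3 by norm_num; exact h) with h | h
        · have := (Nat.prime_iff_prime_int.mp hp).dvd_of_dvd_pow (show (p : ℤ) ∣ 2 ^ 2 by
            norm_num; exact h)
          exact dvd_mul_of_dvd_left (this.trans (by norm_num)) _
        · exact dvd_mul_of_dvd_left (h.trans (by norm_num)) _
      exact_mod_cast this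
    have b1 := bezout_fst (φ (r + t * u)) (φ (s + t * v))
    have b2 := bezout_snd (φ (r + t * u)) (φ (s + t * v))
    rw [z4, zD] at b1 b2
    simp only [mul_zero, add_zero, mul_eq_zero, hp5, false_or,
      pow_eq_zero_iff (by norm_num : (31 : ℕ) ≠ 0)] at b1 b2
    have hdet : (r + t * u) * v - (s + t * v) * u = 12 * fD r s := by
      rw [hu, hv, ← euler_fD]; ring
    have hd := congrArg φ hdet
    rw [map_sub, map_mul, map_mul, b1, b2, zero_mul, zero_mul, sub_self, map_mul,
      map_ofNat] at hd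
    have hz : φ (fD r s) = 0 := by simpa [hp12] using hd.symm
    have hΔ0 : ((W.Δ : ℤ) : ResidueField A) = 0 := by
      rw [← map_intCast φ, ← e0, map_pow, hz, zero_pow (by norm_num)]
    exact h30 (((intCast_residue_eq_zero_iff hA hp _).mp hΔ0).mul_left 30)

end Fermat.Agent.Switch
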