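import Mathlib
import Fermat.Agent.Switch.Transitive

/-!
# Two 5-torsion sections over the icosahedral family: coordinates and identities
-/

set_option autoImplicit false
set_option linter.unusedSectionVars false

namespace Fermat.Agent.Switch

variable {K : Type*} [Field K] [CharZero K]

/-- Short-model abscissa of the standard 5-torsion section. -/
def secX (k r s : K) : K :=
  ((-93 - 36 * k) * s ^ 10 + (198 + 396 * k) * r ^ 5 * s ^ 5 + (-57 + 36 * k) * r ^ 10) / 5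

/-- Short-model ordinate of the standard 5-torsion section, divided by `p`. -/
def secYw (k r s : K) : K :=
  ((-216 - 108 * k) * s ^ 15 + (2484 + 972 * k) * r ^ 5 * s ^ 10
    + (-972 + 2484 * k) * r ^ 10 * s ^ 5 + (-108 + 216 * k) * r ^ 15) / 5

/-- The conjugate parameters. -/
def Param.conj (π : Param K) : Param K where
  k := -1 - π.k
  p := π.k * π.p
  hk := by linear_combination π.hk
  hp := by linear_combination π.k ^ 2 * π.hp + (-2 - π.k) * π.hk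

theorem Param.conj_conj_k (π : Param K) : π.conj.conj.k = π.k := by
  simp [Param.conj]

theorem Param.conj_conj_p (π : Param K) : π.conj.conj.p = -π.p := by
  simp only [Param.conj]
  linear_combination -π.p * π.hk

/-- Short-model ordinate of the standard 5-torsion section. -/
def Param.secY (π : Param K) (r s : K) : K := π.p * secYw π.k r s

theorem Param.secY_conj_conj (π : Param K) (r s : K) :
    π.conj.conj.secY r s = -π.secY r s := by
  simp only [Param.secY, π.conj_conj_k, π.conj_conj_p, neg_mul]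

theorem Param.secY_sq (π : Param K) (r s : K) :
    π.secY r s ^ 2 = secX π.k r s ^ 3 - 27 * fC4 r s * secX π.k r s - 54 * fC6 r s := by
  rw [Param.secY, mul_pow, π.hp]
  simp only [secX, secYw, fC4, fC6]
  linear_combination ((34992 / 125 - 279936 / 125 * π.k) * r ^ 30
    + (-303264 / 125 - 6905088 / 125 * π.k) * r ^ 25 * s ^ 5
    + (-3895776 / 25 - 9949392 / 25 * π.k) * r ^ 20 * s ^ 10
    + (-25847424 / 25 - 16586208 / 25 * π.k) * r ^ 15 * s ^ 15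
    + (3895776 / 25 + 2950992 / 25 * π.k) * r ^ 10 * s ^ 20
    + (-303264 / 125 - 489888 / 125 * π.k) * r ^ 5 * s ^ 25
    + (-34992 / 125 - 11664 / 125 * π.k) * s ^ 30) * π.hk

theorem Param.double_x (π : Param K) (r s : K) :
    (3 * secX π.k r s ^ 2 - 27 * fC4 r s) ^ 2
      = 4 * π.secY r s ^ 2 * (secX π.conj.k r s + 2 * secX π.k r s) := by
  rw [Param.secY, mul_pow, π.hp]
  simp only [Param.conj, secX, secYw, fC4]
  linear_combination ((62565696 / 625 - 270418176 / 625 * π.k + 48708864 / 625 * π.k ^ 2) * r ^ 40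
    + (905313024 / 625 - 6523628544 / 625 * π.k + 1807266816 / 625 * π.k ^ 2) * r ^ 35 * s ^ 5
    + (-1342433088 / 625 - 41798503872 / 625 * π.k + 24124324608 / 625 * π.k ^ 2) * r ^ 30 * s ^ 10
    + (-24666000768 / 625 + 2541259008 / 625 * π.k + 133349753088 / 625 * π.k ^ 2) * r ^ 25 * s ^ 15
    + (31171993344 / 125 + 67891758336 / 125 * π.k + 46577431296 / 125 * π.k ^ 2) * r ^ 20 * s ^ 20
    + (-263010229632 / 625 - 240227918208 / 625 * π.k - 78846213888 / 625 * π.k ^ 2)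
      * r ^ 15 * s ^ 25
    + (48815099712 / 625 + 39232470528 / 625 * π.k + 8965790208 / 625 * π.k ^ 2) * r ^ 10 * s ^ 30
    + (-2836871424 / 625 - 2210374656 / 625 * π.k - 421583616 / 625 * π.k ^ 2) * r ^ 5 * s ^ 35
    + (41570496 / 625 + 34012224 / 625 * π.k + 6718464 / 625 * π.k ^ 2) * s ^ 40) * π.hk

theorem Param.double_y (π : Param K) (r s : K) :
    2 * π.secY r s * π.conj.secY r s + 2 * π.secY r s ^ 2
      + (3 * secX π.k r s ^ 2 - 27 * fC4 r s) * (secX π.conj.k r s - secX π.k r s) = 0 := by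
  rw [show 2 * π.secY r s * π.conj.secY r s + 2 * π.secY r s ^ 2
      = 2 * π.p ^ 2 * (secYw π.k r s * (π.k * secYw π.conj.k r s + secYw π.k r s)) by
    simp only [Param.secY, Param.conj]; ring, π.hp]
  simp only [Param.conj, secX, secYw, fC4]
  linear_combination ((676512 / 125 + 653184 / 125 * π.k + 93312 / 25 * π.k ^ 2) * r ^ 30
    + (12993696 / 125 + 12223872 / 125 * π.k + 2146176 / 25 * π.k ^ 2) * r ^ 25 * s ^ 5
    + (7884864 / 25 + 6205248 / 25 * π.k + 2636064 / 5 * π.k ^ 2) * r ^ 20 * s ^ 10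
    + (-45792864 / 25 - 51694848 / 25 * π.k + 1912896 / 5 * π.k ^ 2) * r ^ 15 * s ^ 15
    + (20108736 / 25 + 21788352 / 25 * π.k + 163296 / 5 * π.k ^ 2) * r ^ 10 * s ^ 20
    + (-12667104 / 125 - 13436928 / 125 * π.k - 419904 / 25 * π.k ^ 2) * r ^ 5 * s ^ 25
    + (489888 / 125 + 513216 / 125 * π.k + 23328 / 25 * π.k ^ 2) * s ^ 30) * π.hk

theorem Param.secY_ne_zero (π : Param K) {r s : K} (hD : fD r s ≠ 0) : π.secY r s ≠ 0 := by
  intro hY
  have h1 := π.double_x r s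
  rw [hY] at h1
  have hX : 3 * secX π.k r s ^ 2 - 27 * fC4 r s = 0 := by simpa using h1
  have h2 := π.secY_sq r s
  rw [hY] at h2
  have hX' : fC4 r s * secX π.k r s = -3 * fC6 r s := by
    linear_combination h2 / 18 + secX π.k r s / 54 * hX
  have h3 := fC4_cube_sub_fC6_sq r s
  have h0 : (1728 : K) * fD r s ^ 5 = 0 := by
    linear_combination -h3 - fC4 r s ^ 2 / 27 * hX
      + (fC4 r s * secX π.k r s - 3 * fC6 r s) / 9 * hX'
  simp [hD] at h0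

/-- The symmetry `T` applied to `(r, s)`. -/
def Param.tr (π : Param K) (r s : K) : K × K :=
  (-π.c * r + π.c * π.k * s, π.c * π.k * r + π.c * s)

theorem Param.fD_tr (π : Param K) (r s : K) : fD (π.tr r s).1 (π.tr r s).2 = fD r s :=
  π.isUni_T.fD_eq r s

theorem Param.fC4_tr (π : Param K) (r s : K) : fC4 (π.tr r s).1 (π.tr r s).2 = fC4 r s :=
  π.isUni_T.isSym.c4_eq r s

theorem Param.fC6_tr (π : Param K) (r s : K) : fC6 (π.tr r s).1 (π.tr r s).2 = fC6 r s :=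
  π.isUni_T.isSym.c6_eq r s

theorem Param.secX_tr (π : Param K) (k r s : K) :
    secX k (π.tr r s).1 (π.tr r s).2
      = (-(3 + π.k) / 5) ^ 5 * secX k (-r + π.k * s) (π.k * r + s) := by
  rw [← π.c_sq, ← pow_mul]
  simp only [Param.tr, secX]
  ring

/-- The abscissa of the transformed section has integral coefficients. -/
theorem Param.secX_tr_eq (π : Param K) (r s : K) :
    secX π.k (π.tr r s).1 (π.tr r s).2
      = 3 * r ^ 10 + 36 * r ^ 8 * s ^ 2 - 36 * r ^ 7 * s ^ 3 + 72 * r ^ 6 * s ^ 4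
        + 90 * r ^ 5 * s ^ 5 + 180 * r ^ 4 * s ^ 6 + 108 * r ^ 3 * s ^ 7 + 72 * r ^ 2 * s ^ 8
        + 36 * r * s ^ 9 + 3 * s ^ 10 := by
  have hR : (-r + π.k * s) ^ 5 = -r ^ 5 + 5 * π.k * r ^ 4 * s
      + (-10 + 10 * π.k) * r ^ 3 * s ^ 2 + (-10 + 20 * π.k) * r ^ 2 * s ^ 3
      + (-10 + 15 * π.k) * r * s ^ 4 + (-3 + 5 * π.k) * s ^ 5 := by
    linear_combination (-10 * r ^ 3 * s ^ 2 + (-10 + 10 * π.k) * r ^ 2 * s ^ 3
      + (-10 + 5 * π.k - 5 * π.k ^ 2) * r * s ^ 4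
      + (-3 + 2 * π.k - π.k ^ 2 + π.k ^ 3) * s ^ 5) * π.hk
  have hS : (π.k * r + s) ^ 5 = (-3 + 5 * π.k) * r ^ 5 + (10 - 15 * π.k) * r ^ 4 * s
      + (-10 + 20 * π.k) * r ^ 3 * s ^ 2 + (10 - 10 * π.k) * r ^ 2 * s ^ 3
      + 5 * π.k * r * s ^ 4 + s ^ 5 := by
    linear_combination ((-3 + 2 * π.k - π.k ^ 2 + π.k ^ 3) * r ^ 5
      + (10 - 5 * π.k + 5 * π.k ^ 2) * r ^ 4 * s
      + (-10 + 10 * π.k) * r ^ 3 * s ^ 2 + 10 * r ^ 2 * s ^ 3) * π.hk
  have hc : (-(3 + π.k) / 5) ^ 5 = -18 / 125 - 11 / 125 * π.k := by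
    linear_combination
      (-207 / 3125 - 77 / 3125 * π.k - 14 / 3125 * π.k ^ 2 - 1 / 3125 * π.k ^ 3) * π.hk
  rw [π.secX_tr]
  simp only [secX, show ∀ x : K, x ^ 10 = (x ^ 5) ^ 2 from fun x => pow_mul x 5 2, hR, hS, hc]
  linear_combination ((-141 / 25 + 1671 / 25 * π.k + 396 / 25 * π.k ^ 2) * r ^ 10
    + (2592 / 25 - 9432 / 25 * π.k - 6732 / 25 * π.k ^ 2) * r ^ 9 * s
    + (-4932 / 25 + 27792 / 25 * π.k + 10692 / 25 * π.k ^ 2) * r ^ 8 * s ^ 2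
    + (4284 / 25 - 45684 / 25 * π.k - 21384 / 25 * π.k ^ 2) * r ^ 7 * s ^ 3
    + (-18936 / 25 + 48096 / 25 * π.k + 20196 / 25 * π.k ^ 2) * r ^ 6 * s ^ 4
    + (-5526 / 25 - 34254 / 25 * π.k - 39204 / 25 * π.k ^ 2) * r ^ 5 * s ^ 5
    + (-20124 / 25 + 21204 / 25 * π.k - 20196 / 25 * π.k ^ 2) * r ^ 4 * s ^ 6
    + (-18036 / 25 - 6084 / 25 * π.k - 21384 / 25 * π.k ^ 2) * r ^ 3 * s ^ 7
    + (-11808 / 25 + 1908 / 25 * π.k - 10692 / 25 * π.k ^ 2) * r ^ 2 * s ^ 8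
    + (-2988 / 25 + 468 / 25 * π.k - 6732 / 25 * π.k ^ 2) * r * s ^ 9
    + (-789 / 25 - 21 / 25 * π.k - 396 / 25 * π.k ^ 2) * s ^ 10) * π.hk

theorem Param.cofactor_self (π : Param K) (r s : K) :
    (secX π.k (π.tr r s).1 (π.tr r s).2 - secX π.k r s)
      * ((3 + π.k) * r ^ 12 * s ^ 2 + (-10 - 5 * π.k) * r ^ 10 * s ^ 4
        + (10 + 5 * π.k) * r ^ 9 * s ^ 5 + (15 + 10 * π.k) * r ^ 8 * s ^ 6
        + (-7 - 14 * π.k) * r ^ 7 * s ^ 7 + (-5 + 10 * π.k) * r ^ 5 * s ^ 9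
        + (5 - 10 * π.k) * r ^ 4 * s ^ 10 + (-5 + 5 * π.k) * r ^ 3 * s ^ 11
        + (2 - π.k) * r ^ 2 * s ^ 12) = 36 * fD r s ^ 2 := by
  rw [π.secX_tr_eq]
  simp only [secX, fD]
  linear_combination (-36 / 5 * r ^ 22 * s ^ 2 + 36 * r ^ 20 * s ^ 4 - 36 * r ^ 19 * s ^ 5
    - 72 * r ^ 18 * s ^ 6 + 108 / 5 * r ^ 17 * s ^ 7 + 324 * r ^ 15 * s ^ 9
    - 324 * r ^ 14 * s ^ 10 - 828 * r ^ 13 * s ^ 11 + 5616 / 5 * r ^ 12 * s ^ 12
    - 828 * r ^ 10 * s ^ 14 + 828 * r ^ 9 * s ^ 15 - 324 * r ^ 8 * s ^ 16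
    - 108 / 5 * r ^ 7 * s ^ 17 + 72 * r ^ 5 * s ^ 19 - 72 * r ^ 4 * s ^ 20
    + 36 * r ^ 3 * s ^ 21 - 36 / 5 * r ^ 2 * s ^ 22) * π.hk

theorem Param.cofactor_conj (π : Param K) (r s : K) :
    (secX π.k (π.tr r s).1 (π.tr r s).2 - secX π.conj.k r s)
      * ((2 - π.k) * r ^ 12 * s ^ 2 + (-5 + 5 * π.k) * r ^ 10 * s ^ 4
        + (5 - 5 * π.k) * r ^ 9 * s ^ 5 + (5 - 10 * π.k) * r ^ 8 * s ^ 6
        + (7 + 14 * π.k) * r ^ 7 * s ^ 7 + (-15 - 10 * π.k) * r ^ 5 * s ^ 9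
        + (15 + 10 * π.k) * r ^ 4 * s ^ 10 + (-10 - 5 * π.k) * r ^ 3 * s ^ 11
        + (3 + π.k) * r ^ 2 * s ^ 12) = 36 * fD r s ^ 2 := by
  rw [π.secX_tr_eq]
  simp only [Param.conj, secX, fD]
  linear_combination (-36 / 5 * r ^ 22 * s ^ 2 + 36 * r ^ 20 * s ^ 4 - 36 * r ^ 19 * s ^ 5
    - 72 * r ^ 18 * s ^ 6 + 108 / 5 * r ^ 17 * s ^ 7 + 324 * r ^ 15 * s ^ 9
    - 324 * r ^ 14 * s ^ 10 - 828 * r ^ 13 * s ^ 11 + 5616 / 5 * r ^ 12 * s ^ 12
    - 828 * r ^ 10 * s ^ 14 + 828 * r ^ 9 * s ^ 15 - 324 * r ^ 8 * s ^ 16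
    - 108 / 5 * r ^ 7 * s ^ 17 + 72 * r ^ 5 * s ^ 19 - 72 * r ^ 4 * s ^ 20
    + 36 * r ^ 3 * s ^ 21 - 36 / 5 * r ^ 2 * s ^ 22) * π.hk

theorem Param.conj_tr_ne (π : Param K) {r s : K} (hD : fD r s ≠ 0) :
    secX π.k (π.tr r s).1 (π.tr r s).2 ≠ secX π.k r s ∧
      secX π.k (π.tr r s).1 (π.tr r s).2 ≠ secX π.conj.k r s := by
  constructor <;> intro h
  · have e := π.cofactor_self r s
    rw [h, sub_self, zero_mul] at e
    simp [hD] at e
  · have e := π.cofactor_conj r s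
    rw [h, sub_self, zero_mul] at e
    simp [hD] at e

end Fermat.Agent.Switch
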