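import Mathlib
import Fermat.Agent.Switch.Sections

/-!
# Rigidity of torsion sections along a line

A 5-torsion section with rational coordinates over an infinite set of parameters is a constant
combination of the two basis sections.
-/

set_option autoImplicit false
set_option linter.unusedSectionVars false

namespace Fermat.Agent.Switch

open WeierstrassCurve Polynomial

variable {K : Type*} [Field K] [CharZero K] [DecidableEq K]

/-- A function given on `U` by a rational expression. -/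
def IsRat (U : Set K) (f : K → K) : Prop :=
  ∃ p q : K[X], ∀ t ∈ U, q.eval t ≠ 0 ∧ f t = p.eval t / q.eval t

variable {U : Set K} {f g : K → K}

theorem isRat_const (c : K) : IsRat U fun _ => c :=
  ⟨C c, 1, fun t _ => by simp⟩

theorem isRat_id : IsRat U fun t => t :=
  ⟨X, 1, fun t _ => by simp⟩

theorem IsRat.add (hf : IsRat U f) (hg : IsRat U g) : IsRat U fun t => f t + g t := by
  obtain ⟨p, q, h⟩ := hf
  obtain ⟨p', q', h'⟩ := hg
  refine ⟨p * q' + p' * q, q * q', fun t ht => ?_⟩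
  obtain ⟨h1, e1⟩ := h t ht
  obtain ⟨h2, e2⟩ := h' t ht
  refine ⟨by simp [h1, h2], ?_⟩
  simp only [eval_add, eval_mul, e1, e2, div_add_div _ _ h1 h2, mul_comm (eval t p')]

theorem IsRat.mul (hf : IsRat U f) (hg : IsRat U g) : IsRat U fun t => f t * g t := by
  obtain ⟨p, q, h⟩ := hf
  obtain ⟨p', q', h'⟩ := hg
  refine ⟨p * p', q * q', fun t ht => ?_⟩
  obtain ⟨h1, e1⟩ := h t ht
  obtain ⟨h2, e2⟩ := h' t ht
  exact ⟨by simp [h1, h2], by simp [e1, e2, div_mul_div_comm]⟩

theorem IsRat.neg (hf : IsRat U f) : IsRat U fun t => -f t := by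
  obtain ⟨p, q, h⟩ := hf
  exact ⟨-p, q, fun t ht => ⟨(h t ht).1, by simp [(h t ht).2, neg_div]⟩⟩

theorem IsRat.sub (hf : IsRat U f) (hg : IsRat U g) : IsRat U fun t => f t - g t := by
  simpa [sub_eq_add_neg] using hf.add hg.neg

theorem IsRat.inv (hf : IsRat U f) (h0 : ∀ t ∈ U, f t ≠ 0) : IsRat U fun t => (f t)⁻¹ := by
  obtain ⟨p, q, h⟩ := hf
  refine ⟨q, p, fun t ht => ?_⟩
  obtain ⟨h1, e1⟩ := h t ht
  have := h0 t ht
  rw [e1] at this
  exact ⟨fun e => this (by simp [e]), by simp only [e1, inv_div]⟩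

theorem IsRat.div (hf : IsRat U f) (hg : IsRat U g) (h0 : ∀ t ∈ U, g t ≠ 0) :
    IsRat U fun t => f t / g t := by
  simpa [div_eq_mul_inv] using hf.mul (hg.inv h0)

theorem IsRat.pow (hf : IsRat U f) (n : ℕ) : IsRat U fun t => f t ^ n := by
  induction n with
  | zero => simpa using isRat_const (U := U) 1
  | succ n ih => simpa [pow_succ] using ih.mul hf

/-- Two rational functions agreeing on an infinite subset agree on all of `U`. -/
theorem IsRat.eq_of_infinite (hf : IsRat U f) (hg : IsRat U g) {V : Set K} (hVU : V ⊆ U)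
    (hV : V.Infinite) (h : ∀ t ∈ V, f t = g t) : ∀ t ∈ U, f t = g t := by
  obtain ⟨p, q, h1⟩ := hf
  obtain ⟨p', q', h2⟩ := hg
  have key : p * q' - p' * q = 0 := by
    refine eq_zero_of_infinite_isRoot _ (hV.mono fun t ht => ?_)
    obtain ⟨n1, e1⟩ := h1 t (hVU ht)
    obtain ⟨n2, e2⟩ := h2 t (hVU ht)
    have := h t ht
    rw [e1, e2, div_eq_div_iff n1 n2] at this
    simp [this]
  intro t ht
  obtain ⟨n1, e1⟩ := h1 t ht
  obtain ⟨n2, e2⟩ := h2 t ht
  rw [e1, e2, div_eq_div_iff n1 n2]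
  have := congrArg (Polynomial.eval t) key
  simpa [sub_eq_zero] using this

variable {E : K → WeierstrassCurve K} {a₁ a₂ a₃ : K}

/-- A family of points with rational coordinates, or identically zero. -/
def IsRatPt (F : ∀ t : U, (E t).toAffine.Point) : Prop :=
  (∀ t, F t = 0) ∨ ∃ x y : K → K, IsRat U x ∧ IsRat U y ∧
    ∀ t : U, ∃ h, F t = Affine.Point.some (x t) (y t) h

theorem IsRatPt.eq_of_infinite {F G : ∀ t : U, (E t).toAffine.Point} (hF : IsRatPt F)
    (hG : IsRatPt G) (hV : {t : U | F t = G t}.Infinite) : ∀ t, F t = G t := by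
  rcases hF with hF | ⟨x, y, hx, hy, hF⟩ <;> rcases hG with hG | ⟨x', y', hx', hy', hG⟩
  · intro t; rw [hF, hG]
  · obtain ⟨t, ht⟩ := hV.nonempty
    obtain ⟨h, e⟩ := hG t
    exact absurd ((hF t).symm.trans (ht.trans e)).symm (Affine.Point.some_ne_zero h)
  · obtain ⟨t, ht⟩ := hV.nonempty
    obtain ⟨h, e⟩ := hF t
    exact absurd (e.symm.trans (ht.trans (hG t))) (Affine.Point.some_ne_zero h)
  · set V : Set K := Subtype.val '' {t : U | F t = G t} with hVdef
    have hVinf : V.Infinite := hV.image Subtype.val_injective.injOn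
    have hVU : V ⊆ U := by rintro _ ⟨t, -, rfl⟩; exact t.2
    have hxy : ∀ t ∈ V, x t = x' t ∧ y t = y' t := by
      rintro _ ⟨t, ht, rfl⟩
      obtain ⟨h, e⟩ := hF t
      obtain ⟨h', e'⟩ := hG t
      have := e.symm.trans (Eq.trans ht e')
      simpa using this
    intro t
    obtain ⟨h, e⟩ := hF t
    obtain ⟨h', e'⟩ := hG t
    rw [e, e']
    simp only [Affine.Point.some.injEq]
    exact ⟨hx.eq_of_infinite hx' hVU hVinf (fun s hs => (hxy s hs).1) t t.2,
      hy.eq_of_infinite hy' hVU hVinf (fun s hs => (hxy s hs).2) t t.2⟩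

variable (U E a₁ a₂ a₃) in
/-- The coefficients `a₁, a₂, a₃` do not vary along the family. -/
def ConstA : Prop := ∀ t ∈ U, (E t).a₁ = a₁ ∧ (E t).a₂ = a₂ ∧ (E t).a₃ = a₃

theorem IsRatPt.neg (hA : ConstA U E a₁ a₂ a₃) {F : ∀ t : U, (E t).toAffine.Point}
    (hF : IsRatPt F) : IsRatPt fun t => -F t := by
  rcases hF with hF | ⟨x, y, hx, hy, hF⟩
  · exact Or.inl fun t => by simp [hF]
  · refine Or.inr ⟨x, fun t => -y t - a₁ * x t - a₃, hx,
      (hy.neg.sub ((isRat_const a₁).mul hx)).sub (isRat_const a₃), fun t => ?_⟩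
    obtain ⟨h, e⟩ := hF t
    obtain ⟨h1, -, h3⟩ := hA t t.2
    have eneg : (E t).toAffine.negY (x t) (y t) = -y t - a₁ * x t - a₃ := by
      simp [Affine.negY, h1, h3]
    have hn : (E t).toAffine.Nonsingular (x t) (-y t - a₁ * x t - a₃) :=
      eneg ▸ (Affine.nonsingular_neg ..).mpr h
    refine ⟨hn, ?_⟩
    simp only [e, Affine.Point.neg_some, eneg]

theorem IsRatPt.add (hA : ConstA U E a₁ a₂ a₃) {F G : ∀ t : U, (E t).toAffine.Point}
    {x y x' y' : K → K} (hx : IsRat U x) (hy : IsRat U y) (hx' : IsRat U x') (hy' : IsRat U y')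
    (hF : ∀ t : U, ∃ h, F t = Affine.Point.some (x t) (y t) h)
    (hG : ∀ t : U, ∃ h, G t = Affine.Point.some (x' t) (y' t) h)
    (hne : ∀ t ∈ U, x t ≠ x' t) : IsRatPt fun t => F t + G t := by
  have hd : ∀ t ∈ U, x t - x' t ≠ 0 := fun t ht => sub_ne_zero.mpr (hne t ht)
  have hL : IsRat U fun t => (y t - y' t) / (x t - x' t) := (hy.sub hy').div (hx.sub hx') hd
  set L : K → K := fun t => (y t - y' t) / (x t - x' t) with hLdef
  have hX : IsRat U fun t => L t ^ 2 + a₁ * L t - a₂ - x t - x' t :=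
    ((((hL.pow 2).add ((isRat_const a₁).mul hL)).sub (isRat_const a₂)).sub hx).sub hx'
  set X' : K → K := fun t => L t ^ 2 + a₁ * L t - a₂ - x t - x' t with hXdef
  have hY : IsRat U fun t => -(L t * (X' t - x t) + y t) - a₁ * X' t - a₃ :=
    (((hL.mul (hX.sub hx)).add hy).neg.sub ((isRat_const a₁).mul hX)).sub (isRat_const a₃)
  refine Or.inr ⟨X', _, hX, hY, fun t => ?_⟩
  obtain ⟨h, e⟩ := hF t
  obtain ⟨h', e'⟩ := hG t
  obtain ⟨h1, h2, h3⟩ := hA t t.2
  have hs := (E t).toAffine.slope_of_X_ne (y₁ := y t) (y₂ := y' t) (hne t t.2)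
  have key := Affine.Point.add_of_X_ne (h₁ := h) (h₂ := h') (hne t t.2)
  have ex : (E t).toAffine.addX (x t) (x' t)
      ((E t).toAffine.slope (x t) (x' t) (y t) (y' t)) = X' t := by
    simp only [hs, Affine.addX, hXdef, hLdef, h1, h2]
  have ey : (E t).toAffine.addY (x t) (x' t) (y t)
      ((E t).toAffine.slope (x t) (x' t) (y t) (y' t))
        = -(L t * (X' t - x t) + y t) - a₁ * X' t - a₃ := by
    rw [Affine.addY, Affine.negAddY, ex]
    simp only [hs, Affine.negY, hLdef, h1, h3]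
  simp only [ex, ey] at key
  exact ⟨_, by simp only [e, e']; exact key⟩

theorem isRat_secX (k : K) {r s : K → K} (hr : IsRat U r) (hs : IsRat U s) :
    IsRat U fun t => secX k (r t) (s t) := by
  unfold secX
  exact ((((isRat_const _).mul (hs.pow 10)).add
    (((isRat_const _).mul (hr.pow 5)).mul (hs.pow 5))).add
    ((isRat_const _).mul (hr.pow 10))).div (isRat_const _) (fun _ _ => by norm_num)

theorem isRat_secY (π : Param K) {r s : K → K} (hr : IsRat U r) (hs : IsRat U s) :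
    IsRat U fun t => π.secY (r t) (s t) := by
  unfold Param.secY secYw
  exact (isRat_const _).mul (((((isRat_const _).mul (hs.pow 15)).add
    (((isRat_const _).mul (hr.pow 5)).mul (hs.pow 10))).add
    (((isRat_const _).mul (hr.pow 10)).mul (hs.pow 5))).add
    ((isRat_const _).mul (hr.pow 15)) |>.div (isRat_const _) (fun _ _ => by norm_num))

variable {r s : K → K}

theorem coordsPoint (hA : ConstA U E a₁ a₂ a₃) (π : Param K) (hr : IsRat U r) (hs : IsRat U s)
    (hfib : ∀ t : U, Fib (E t) (r t) (s t)) :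
    ∃ x y : K → K, IsRat U x ∧ IsRat U y ∧
      (∀ t ∈ U, x t = (secX π.k (r t) (s t) - 3 * (a₁ ^ 2 + 4 * a₂)) / 36) ∧
      ∀ t : U, ∃ h, (hfib t).point π = Affine.Point.some (x t) (y t) h := by
  set x : K → K := fun t => (secX π.k (r t) (s t) - 3 * (a₁ ^ 2 + 4 * a₂)) / 36 with hxdef
  set y : K → K := fun t => (π.secY (r t) (s t) / 108 - a₁ * x t - a₃) / 2 with hydef
  have hx : IsRat U x :=
    ((isRat_secX π.k hr hs).sub (isRat_const _)).div (isRat_const 36) (fun _ _ => by norm_num)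
  have hy : IsRat U y :=
    ((((isRat_secY π hr hs).div (isRat_const 108) (fun _ _ => by norm_num)).sub
      ((isRat_const a₁).mul hx)).sub (isRat_const a₃)).div (isRat_const 2)
      (fun _ _ => by norm_num)
  refine ⟨x, y, hx, hy, fun t _ => rfl, fun t => ?_⟩
  obtain ⟨h1, h2, h3⟩ := hA t t.2
  have ex : affX (E t) (secX π.k (r t) (s t)) = x t := by
    simp [affX, hxdef, WeierstrassCurve.b₂, h1, h2]
  have ey : affY (E t) (secX π.k (r t) (s t)) (π.secY (r t) (s t)) = y t := by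
    simp [affY, hydef, ex, h1, h3]
  have hns : (E t).toAffine.Nonsingular (x t) (y t) := by
    have := (hfib t).equation π
    rwa [ex, ey] at this
  refine ⟨hns, ?_⟩
  simp only [Fib.point, ex, ey]

theorem isRatPt_point (hA : ConstA U E a₁ a₂ a₃) (π : Param K) (hr : IsRat U r)
    (hs : IsRat U s) (hfib : ∀ t : U, Fib (E t) (r t) (s t)) :
    IsRatPt fun t : U => (hfib t).point π := by
  obtain ⟨x, y, hx, hy, -, h⟩ := coordsPoint hA π hr hs hfib
  exact Or.inr ⟨x, y, hx, hy, h⟩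

theorem isRat_tr (π : Param K) (hr : IsRat U r) (hs : IsRat U s) :
    IsRat U (fun t => (π.tr (r t) (s t)).1) ∧ IsRat U (fun t => (π.tr (r t) (s t)).2) :=
  ⟨((isRat_const _).mul hr).add ((isRat_const _).mul hs),
    ((isRat_const _).mul hr).add ((isRat_const _).mul hs)⟩

theorem isRatPt_multiple (hA : ConstA U E a₁ a₂ a₃) (π : Param K) (hr : IsRat U r)
    (hs : IsRat U s) (hfib : ∀ t : U, Fib (E t) (r t) (s t)) (a : ZMod 5) :
    IsRatPt fun t : U => a.val • (hfib t).point π := by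
  have h1 := isRatPt_point hA π hr hs hfib
  have h2 := isRatPt_point hA π.conj hr hs hfib
  have hlt := ZMod.val_lt a
  interval_cases a.val
  · exact Or.inl fun t => zero_nsmul _
  · simpa only [one_nsmul] using h1
  · simpa only [(hfib _).two_nsmul_point] using h2
  · convert h2.neg hA using 2 with t
    rw [← (hfib t).two_nsmul_point π, eq_neg_iff_add_eq_zero, ← add_nsmul]
    exact (hfib t).five_nsmul_point π
  · convert h1.neg hA using 2 with t
    rw [eq_neg_iff_add_eq_zero, ← succ_nsmul]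
    exact (hfib t).five_nsmul_point π

theorem isRatPt_comb (hA : ConstA U E a₁ a₂ a₃) (π : Param K) (hr : IsRat U r)
    (hs : IsRat U s) (hfib : ∀ t : U, Fib (E t) (r t) (s t)) (mn : ZMod 5 × ZMod 5) :
    IsRatPt fun t : U => (hfib t).comb π mn := by
  obtain ⟨hr', hs'⟩ := isRat_tr π hr hs
  have hP := isRatPt_multiple hA π hr hs hfib mn.1
  have hQ := isRatPt_multiple hA π hr' hs' (fun t => (hfib t).tr π) mn.2
  simp only [Fib.comb, Fib.baseP, Fib.baseQ]
  rcases hP with hP | ⟨x, y, hx, hy, hP⟩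
  · simpa only [hP, zero_add] using hQ
  rcases hQ with hQ | ⟨x', y', hx', hy', hQ⟩
  · simp only [hQ, add_zero]
    exact Or.inr ⟨x, y, hx, hy, hP⟩
  refine IsRatPt.add hA hx hy hx' hy' hP hQ fun t ht hxx => ?_
  obtain ⟨h, e⟩ := hP ⟨t, ht⟩
  obtain ⟨h', e'⟩ := hQ ⟨t, ht⟩
  have hadd := Affine.Point.X_eq_iff (h₁ := h) (h₂ := h') |>.mp hxx
  simp only at e e'
  rw [← e, ← e'] at hadd
  have hcomb : ∀ sgn : ℕ, mn.1.val • (hfib ⟨t, ht⟩).point π
      + sgn • (mn.2.val • ((hfib ⟨t, ht⟩).tr π).point π)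
      = (hfib ⟨t, ht⟩).combHom π (mn.1, (sgn : ZMod 5) * mn.2) := fun sgn => by
    change _ = (hfib ⟨t, ht⟩).comb π (mn.1, (sgn : ZMod 5) * mn.2)
    simp only [Fib.comb, Fib.baseP, Fib.baseQ, ← mul_nsmul']
    rw [val_nsmul_eq (((hfib ⟨t, ht⟩).tr π).five_nsmul_point π)
      (n := sgn * mn.2.val) (a := (sgn : ZMod 5) * mn.2) (by simp)]
  have hinj := (hfib ⟨t, ht⟩).comb_injective π
  rcases hadd with hadd | hadd
  · have h4 := hcomb 4
    rw [hadd, ← succ_nsmul', nsmul_left_comm,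
      ((hfib ⟨t, ht⟩).tr π).five_nsmul_point π, nsmul_zero,
      ← map_zero ((hfib ⟨t, ht⟩).combHom π)] at h4
    have := congrArg Prod.fst (hinj h4.symm)
    simp only [Prod.fst_zero] at this
    rw [this, ZMod.val_zero, zero_nsmul] at e
    exact Affine.Point.some_ne_zero h e.symm
  · have h1 := hcomb 1
    rw [hadd, one_nsmul, neg_add_cancel, ← map_zero ((hfib ⟨t, ht⟩).combHom π)] at h1
    have := congrArg Prod.fst (hinj h1.symm)
    simp only [Prod.fst_zero] at this
    rw [this, ZMod.val_zero, zero_nsmul] at e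
    exact Affine.Point.some_ne_zero h e.symm

/-- A rational 5-torsion section is a constant combination of the basis sections. -/
theorem exists_const_comb [IsAlgClosed K] (hA : ConstA U E a₁ a₂ a₃) (π : Param K)
    (hr : IsRat U r) (hs : IsRat U s) (hfib : ∀ t : U, Fib (E t) (r t) (s t))
    (hU : U.Infinite)
    (hcard : ∀ t : U, Nat.card (Submodule.torsionBy ℤ (E t).toAffine.Point (5 : ℕ)) = 25)
    {F : ∀ t : U, (E t).toAffine.Point} (hF : IsRatPt F) (h5 : ∀ t, 5 • F t = 0) :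
    ∃ mn, ∀ t, F t = (hfib t).comb π mn := by
  choose mn hmn using fun t => (hfib t).exists_comb_eq π (hcard t) (h5 t)
  have : Infinite U := hU.to_subtype
  obtain ⟨c, hc⟩ := Finite.exists_infinite_fiber mn
  refine ⟨c, hF.eq_of_infinite (isRatPt_comb hA π hr hs hfib c) ?_⟩
  refine (Set.infinite_coe_iff.mp hc).mono fun t ht => ?_
  simp only [Set.mem_preimage, Set.mem_singleton_iff] at ht
  simp only [Set.mem_ofPred_eq, ← ht, hmn]

end Fermat.Agent.Switch
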